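import Fermat.Agent.S17.Cur.PV

/-!
# S17 / Est 2 : auxiliary families : sections through a fixed point, Wronskians (adjunction), differentials
-/

set_option autoImplicit false

open AlgebraicCurve KaehlerDifferential

namespace Fermat.Agent.S17.Est

open S27 AH Cur

section General

variable {K F : Type*} [Field K] [Field F] [Algebra K F] [IsAlgClosed K] [CharZero K] [IsFF K F]
  {ι : Type*}

/-- the linear forms vanishing at the point with coordinates `xe`. -/
def secFam (φ : ι → F) (xe : ι → K) : ι × ι → F :=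
  fun p => φ p.1 * algebraMap K F (xe p.2) - φ p.2 * algebraMap K F (xe p.1)

/-- the Pluecker vector of the secant through `P` and the fixed point `e` is the coordinate vector of `P` for the
family `secFam` (also for `P = e` : tangent line). -/
theorem exists_isPV_secFam {φ : ι → F} (hVA : IsVA K φ) {e : Place K F} {xe : ι → K}
    (hxe : IsPV φ e xe) {P : Place K F} {w : ι × ι → K} (hw : IsWV φ P e w) :
    ∃ c : K, c ≠ 0 ∧ IsPV (secFam φ xe) P (fun p => c * w p) := by
  sorry

theorem isPD_secFam {φ : ι → F} (hVA : IsVA K φ) {D : Divisor K F} (hD : IsPD φ D) {e : Place K F}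
    {xe : ι → K} (hxe : IsPV φ e xe) : IsPD (secFam φ xe) (D - Finsupp.single e 1) := by
  sorry

variable (K) in
open Classical in
/-- the derivative `df / dt₀`. -/
noncomputable def dd (t₀ f : F) : F :=
  if h : ∃ c : F, D K F f = c • D K F t₀ then h.choose else 0

theorem dd_spec {t₀ : F} (ht₀ : D K F t₀ ≠ 0) (f : F) : D K F f = dd K t₀ f • D K F t₀ := by
  sorry

variable (K) in
/-- the Wronskian family `φ i dφ j - φ j dφ i`. -/
noncomputable def wrFam (φ : ι → F) (t₀ : F) : ι × ι → F :=
  fun p => φ p.1 * dd K t₀ (φ p.2) - φ p.2 * dd K t₀ (φ p.1)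

/-- **adjunction** : the Pluecker vector of the tangent line at `P` is the coordinate vector of `P` for the
Wronskian family.  (`wrFam (u φ) = u² wrFam φ`; for `y` regular at `P` and `t` a uniformiser,
`dy = y' dt` with `y'` regular, `y'(P) = ((y - y(P)) / t)(P)` : RR/Hurwitz.lean `exists_D_eq_of_mem`;
`dt = c dt₀` with `ord_P c = - ord_P (dt₀)`.) -/
theorem exists_isPV_wrFam {φ : ι → F} (hVA : IsVA K φ) {t₀ : F} (ht₀ : D K F t₀ ≠ 0) {P : Place K F}
    {w : ι × ι → K} (hw : IsWV φ P P w) :
    ∃ c : K, c ≠ 0 ∧ IsPV (wrFam K φ t₀) P (fun p => c * w p) := by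
  sorry

theorem isPD_wrFam {φ : ι → F} (hVA : IsVA K φ) {Dv : Divisor K F} (hD : IsPD φ Dv) {t₀ : F}
    (ht₀ : D K F t₀ ≠ 0) {W : Divisor K F} (hW : ∀ v, W v = v.ordDifferential (D K F t₀)) :
    IsPD (wrFam K φ t₀) (2 • Dv + W) := by
  sorry

/-- the canonical linear system is base point free (`g ≥ 1`). -/
theorem isPD_canonical {κ : Type*} {f : κ → F} {lam : Module.Dual K (RR.Adele K F)} {W : Divisor K F}
    (hW : RR.IsCanonical lam W) (hg : 1 ≤ genusFF K F)
    (hf : Submodule.span K (Set.range f) = riemannRochSpace W) : IsPD f W := by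
  sorry

end General

section Height

variable {F : Type*} [Field F] [Algebra Qb F] [IsFF Qb F] {ι : Type*} [Finite ι]

theorem hW_eq_ht_secFam {φ : ι → F} (hVA : IsVA Qb φ) {e : Place Qb F} {xe : ι → Qb}
    (hxe : IsPV φ e xe) (P : Place Qb F) : hW φ P e = ht (secFam φ xe) P := by
  sorry

theorem hW_self_eq_ht_wrFam {φ : ι → F} (hVA : IsVA Qb φ) {t₀ : F} (ht₀ : D Qb F t₀ ≠ 0)
    (P : Place Qb F) : hW φ P P = ht (wrFam Qb φ t₀) P := by
  sorry

end Height

end Fermat.Agent.S17.Est
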