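import Fermat.Agent.S17.Loc.Vec
import Fermat.Agent.S17.Gen.Point

/-!
# S17 / Est 1 : the height machine on the curve
-/

set_option autoImplicit false

open AlgebraicCurve

namespace Fermat.Agent.S17.Est

open S27 VT AH Cur Loc Gen

variable {F : Type} [Field F] [Algebra Qb F] [IsFF Qb F]

/-- **(H1)** two families with the same pole divisor define the same height up to `O(1)`.

Proof.  `exists_genericData Qb F 1 0` : `Ω`, `FΩ = BCField Qb Ω F`, a generic place `𝔔`.  `𝔔` is not a constant place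
(it has at least two different reductions, `redPl_extPlace`), so `ord_𝔔 u = 0` for all `u : F`, `u ≠ 0`
(`extDiv_divOf`), and `X i = val 𝔔 (α i)`, `Y j = val 𝔔 (β j)` are coordinate vectors (`u = 1` in `IsPV`).
For every `O` : let `R = redPl 𝔔`, `u : F` with `ord_R u = D R`; `σ₀ = val 𝔔 u` normalises both `X` and `Y`
(`val_algebraMap_mem`, `IsPD.isPV_of_ord`).  So the hypothesis of `transfer_prod_eq` (`A = B = Unit`, `lam = 1`)
holds by `IsNormalizer.valuation_eq`.  Given `P` choose `O` with `redPl 𝔔 = P`; `isPV_res` and `ht_eq`. -/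
theorem abs_ht_sub_ht_le {ι κ : Type} [Finite ι] [Finite κ] {α : ι → F} {β : κ → F}
    {D : Divisor Qb F} (hα : IsPD α D) (hβ : IsPD β D) :
    ∃ C : ℝ, ∀ P : Place Qb F, |ht α P - ht β P| ≤ C := by
  sorry

/-- pole divisor of a tensor power. -/
theorem isPD_pow {K F : Type*} [Field K] [Field F] [Algebra K F] [IsAlgClosed K] [CharZero K]
    [IsFF K F] {ι : Type*} {φ : ι → F} {D : Divisor K F} (h : IsPD φ D) (n : ℕ) :
    IsPD (fun p : Fin n → ι => ∏ a, φ (p a)) (n • D) := by
  sorry

/-- **(H5)** comparison of heights by degrees: if `q deg E + 2 g ≤ p deg D` then `q h_β ≤ p h_α + C`.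

Proof.  `ζ` a basis of `L(p D - q E)`, of pole divisor `p D - q E` (`isPD_of_span`).  The families
`β^{⊗ q} ⊗ ζ` and `α^{⊗ p}` have the same pole divisor `p D`; `(H1)`, `ht_tmul`, `ht_pow`, `ht_nonneg`. -/
theorem mul_ht_le_mul_ht {ι κ : Type} [Finite ι] [Finite κ] {α : ι → F} {β : κ → F}
    {D E : Divisor Qb F} (hα : IsPD α D) (hβ : IsPD β E) (p q : ℕ)
    (h : q * Divisor.degree E + 2 * (genusFF Qb F : ℤ) ≤ p * Divisor.degree D) :
    ∃ C : ℝ, ∀ P : Place Qb F, q * ht β P ≤ p * ht α P + C := by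
  sorry

end Fermat.Agent.S17.Est
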