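import Fermat.Agent.S17.Est.H1
import Fermat.Agent.S17.AH.Northcott
import Fermat.Prelude.Def_AlgebraicCurve_BaseChangeGalois

/-!
# S17 / Est 6 : Northcott's theorem for places with bounded Galois orbit
-/

set_option autoImplicit false

open AlgebraicCurve

namespace Fermat.Agent.S17.Est

open S27 AH Cur

/-- the absolute Galois group of `ℚ`. -/
local notation "GQ" => (AlgebraicClosure ℚ ≃ₐ[ℚ] AlgebraicClosure ℚ)

variable {F : Type} [Field F] [Algebra Qb F] [IsFF Qb F]
  (ρ : GQ →* SemilinearAut Qb F) (hρ : ∀ σ, SemilinearAut.baseAut (ρ σ) = σ.toRingEquiv)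

include hρ in
/-- evaluation is Galois equivariant. -/
theorem val_smul (σ : GQ) (P : Place Qb F) (f : F) : val (ρ σ • P) (ρ σ • f) = σ (val P f) := by
  sorry

include hρ in
/-- Galois orbits of places are finite.  (`j(σ P) = σ (j(P))` has finitely many values and `j` has finite fibres;
the poles of `j` are permuted.) -/
theorem finite_orbit {j : F} (hj : j ∉ Set.range (algebraMap Qb F)) (hjρ : ∀ σ, ρ σ • j = j)
    (P : Place Qb F) : (Set.range fun σ : GQ => ρ σ • P).Finite := by
  sorry

include hρ in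
/-- **Northcott.**  (`h_{(j,1)} ≤ p h_φ + C` by `mul_ht_le_mul_ht`; for `P` not a pole of `j`, `(j(P), 1)` is a coordinate vector;
the conjugates of `j(P)` are the `j(σ P)`, so `deg j(P) ≤ d`; `AH.finite_setOf_height_le`; `j` has finite fibres.) -/
theorem finite_setOf_ht_le {j : F} (hj : j ∉ Set.range (algebraMap Qb F)) (hjρ : ∀ σ, ρ σ • j = j)
    {ι : Type} [Finite ι] {φ : ι → F} {D : Divisor Qb F} (hD : IsPD φ D)
    (hdeg : 0 < Divisor.degree D) (d : ℕ) (B : ℝ) :
    {P : Place Qb F | (Set.range fun σ : GQ => ρ σ • P).ncard ≤ d ∧ ht φ P ≤ B}.Finite := by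
  sorry

end Fermat.Agent.S17.Est
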