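import Fermat.Agent.S17.Est.NS
import Fermat.Agent.S17.Est.Nor
import Fermat.Agent.S17.Quad.Main

/-!
# S17 / Est 7 : the height half of Mordell-Weil (route VT)
-/

set_option autoImplicit false

open AlgebraicCurve

namespace Fermat.Agent.S17.Est

open S27 AH Cur Quad

/-- the absolute Galois group of `ℚ`. -/
local notation "GQ" => (AlgebraicClosure ℚ ≃ₐ[ℚ] AlgebraicClosure ℚ)

/-- `D = (4 g + 1) P₀`, `φ` a basis of `L(D)` (`isPD_of_span`, `isVA_of_span`), `Bt φ`, `h = ht φ`;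
`qb_final`, `ns_bound` (for `g = 0` : `D' = E = 0`), `finite_orbit`, `finite_setOf_ht_le`,
`Quad.exists_quadratic_height_of_estimates`. -/
theorem exists_quadratic_height_VT {F : Type} [Field F] [Algebra Qb F] [IsFF Qb F]
    (ρ : GQ →* SemilinearAut Qb F) (hρ : ∀ σ, SemilinearAut.baseAut (ρ σ) = σ.toRingEquiv)
    (j : F) (hj : j ∉ Set.range (algebraMap Qb F)) (hjρ : ∀ σ, ρ σ • j = j) :
    ∃ q : Pic0 Qb F → ℝ, (∀ x, 0 ≤ q x) ∧
      (∃ C : ℝ, ∀ x y, |q (x + y) + q (x - y) - 2 * (q x + q y)| ≤ C) ∧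
      ∀ B : ℝ, {x : Pic0 Qb F | (∀ σ, ρ σ • x = x) ∧ q x ≤ B}.Finite := by
  sorry

end Fermat.Agent.S17.Est
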