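import Fermat.Agent.S17.Est.H1
import Fermat.Agent.S17.Loc.Vdm

/-!
# S17 / Est 4 : **(VDM)** the determinant of differentials bounds the mutual distances of a non special divisor
-/

set_option autoImplicit false

open AlgebraicCurve

namespace Fermat.Agent.S17.Est

open S27 VT AH Cur Loc Gen

variable {F : Type} [Field F] [Algebra Qb F] [IsFF Qb F] {ι : Type} [Fintype ι]

/-- **(VDM)**  `f : Fin n → F` a family with pole divisor `W`.  Uniformly in the places `P 1, ..., P n` (not nec. distinct) such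
that no non zero combination of the `f i` lies in `L(W - ∑ P j)` :
`∑_{i<j} (h(P i) + h(P j)) ≤ ∑_j h_f(P j) + ∑_{i<j} h(w(P i, P j)) + C`.

Proof.  `exists_genericData Qb F n 0` : generic places `𝔓 j` (pairwise distinct: specialise to distinct places).  `X j`, `Z j`
coordinate vectors of `𝔓 j` for `φ`, `f`.  `transfer_prod_le` with `A = {(i,j) : i < j} × Bool`, `s ((i,j),b) = X i` or `X j`;
`B = Fin n ⊕ {(i,j) : i < j}`, `t (inl j) = Z j`, `t (inr (i,j)) = X i ∧ X j`; `lam = det Z`.  Hypothesis: `isWV_res` (second part)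
and `valuation_det_le`; equality for the specialisation at `P` by `valuation_det_eq`.  `isPV_res`, `isWV_res`, `ht_eq`, `hW_eq`. -/
theorem vdm_height {φ : ι → F} (hVA : IsVA Qb φ) {n : ℕ} {f : Fin n → F} {W : Divisor Qb F}
    (hf : IsPD f W) :
    ∃ C : ℝ, ∀ P : Fin n → Place Qb F,
      (∀ a ∈ Submodule.span Qb (Set.range f), a ∈ riemannRochSpace (W - sumDiv P) → a = 0) →
      ∑ i, ∑ j ∈ Finset.Ioi i, (ht φ (P i) + ht φ (P j)) ≤
        ∑ j, ht f (P j) + ∑ i, ∑ j ∈ Finset.Ioi i, hW φ (P i) (P j) + C := by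
  sorry

end Fermat.Agent.S17.Est
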