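import Fermat.Agent.S17.Est.QB
import Fermat.Agent.S17.Est.Vdm
import Fermat.Agent.S17.Est.Fam

/-!
# S17 / Est 5 : **(NS)** the lower bound for non special divisors
-/

set_option autoImplicit false

open AlgebraicCurve KaehlerDifferential

namespace Fermat.Agent.S17.Est

open S27 VT AH Cur Quad

variable {F : Type} [Field F] [Algebra Qb F] [IsFF Qb F] {ι : Type} [Fintype ι]

/-- expansion of the self pairing (pure algebra): for `D' = ∑ P i`, `E = ∑ e a` (`n` points each)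
`- pair (D' - E) (D' - E) = 2 ∑_{i<j} hW (P i) (P j) + ∑_i hW (P i) (P i) - 2 ∑_{i,a} hW (P i) (e a) + const(E)`. -/
theorem neg_pair_self_eq (φ : ι → F) {n : ℕ} (e : Fin n → Place Qb F) :
    ∃ c : ℝ, ∀ P : Fin n → Place Qb F,
      - pair (Bt φ) (sumDiv P - sumDiv e) (sumDiv P - sumDiv e) =
        2 * ∑ i, ∑ j ∈ Finset.Ioi i, hW φ (P i) (P j) + ∑ i, hW φ (P i) (P i)
          - 2 * ∑ i, ∑ a, hW φ (P i) (e a) + c := by
  sorry

/-- the one point estimate : the divisor `2 (g-1) D + (2 D + W) - 2 W - 2 ∑_a (D - e a) = 2 E - W` has degree `2 > 0`.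

Proof.  `α := φ^{⊗ 2(g-1)} ⊗ wrFam`, pole divisor `2 g D + W`; `β := f^{⊗ 2} ⊗ ⨂_a (secFam a)^{⊗ 2}`, pole divisor
`2 W + 2 g D - 2 E`; `deg α - deg β = 2`.  `mul_ht_le_mul_ht` with `q = p + 1`, `2 p ≥ deg β + 2 g` gives
`h_α - h_β ≥ h_α / (p + 1) - C`; and `h_α ≥ h_wr ≥ h_φ - C` (`mul_ht_le_mul_ht`, `p = q = 1`, `deg D ≥ 2 g`). -/
theorem one_point_bound {φ : ι → F} {D : Divisor Qb F} (hD : IsPD φ D) (hVA : IsVA Qb φ)
    (hdeg : 2 * (genusFF Qb F : ℤ) ≤ Divisor.degree D) {t₀ : F} (ht₀ : KaehlerDifferential.D Qb F t₀ ≠ 0)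
    {W : Divisor Qb F} (hW : ∀ v, W v = v.ordDifferential (KaehlerDifferential.D Qb F t₀))
    {f : Fin (genusFF Qb F) → F} (hf : IsPD f W)
    (e : Fin (genusFF Qb F) → Place Qb F) (xe : Fin (genusFF Qb F) → ι → Qb)
    (hxe : ∀ a, IsPV φ (e a) (xe a)) :
    ∃ C ε : ℝ, 0 < ε ∧ ∀ P : Place Qb F,
      ε * ht φ P - C ≤ 2 * ((genusFF Qb F : ℝ) - 1) * ht φ P + ht (wrFam Qb φ t₀) P - 2 * ht f P
        - 2 * ∑ a, ht (secFam φ (xe a)) P := by
  sorry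

/-- **(NS)**, in the form needed by `Quad.exists_quadratic_height_of_estimates` (`g ≥ 1`).
(`neg_pair_self_eq`, `vdm_height` for a basis `f` of `L(W)`, `W = div (dt₀)` (`isPD_canonical`, `RR.isCanonical_weil`,
`Quad.ell_canonical_sub_eq_zero`), `hW_self_eq_ht_wrFam`, `hW_eq_ht_secFam`, `one_point_bound`.) -/
theorem ns_bound {φ : ι → F} {D : Divisor Qb F} (hD : IsPD φ D) (hVA : IsVA Qb φ)
    (hdeg : 2 * (genusFF Qb F : ℤ) ≤ Divisor.degree D) (hg : 1 ≤ genusFF Qb F)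
    (E : Divisor Qb F) (hE : 0 ≤ E) (hEdeg : Divisor.degree E = genusFF Qb F) :
    ∃ C ε : ℝ, 0 < ε ∧ ∀ D' : Divisor Qb F, 0 ≤ D' → Divisor.degree D' = genusFF Qb F →
      RR.ell D' = 1 →
      ε * (D'.sum fun P a => (a : ℝ) * ht φ P) - C ≤ - pair (Bt φ) (D' - E) (D' - E) := by
  sorry

end Fermat.Agent.S17.Est
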