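import Fermat.Agent.S17.Est.H1
import Fermat.Agent.S17.Quad.Abstract
import Fermat.Agent.S17.Quad.RR

/-!
# S17 / Est 3 : **(QB)** quasi-invariance of the pairing under linear equivalence
-/

set_option autoImplicit false

open AlgebraicCurve

namespace Fermat.Agent.S17.Est

open S27 VT AH Cur Loc Gen Quad

variable {F : Type} [Field F] [Algebra Qb F] [IsFF Qb F] {ι : Type} [Fintype ι]

/-- the height of the diagonal : `h_Δ(P,Q) = h(P) + h(Q) - h(secant line)`. -/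
noncomputable def Bt (φ : ι → F) (P Q : Place Qb F) : ℝ := ht φ P + ht φ Q - hW φ P Q

theorem Bt_comm (φ : ι → F) (P Q : Place Qb F) : Bt φ P Q = Bt φ Q P := by
  unfold Bt
  rw [hW_comm, add_comm]

/-- the hyperplane section with coefficients `c`. -/
noncomputable def secDiv (φ : ι → F) (D : Divisor Qb F) (c : ι → Qb) : Divisor Qb F :=
  divOf (K := Qb) (∑ i, algebraMap Qb F (c i) * φ i) + D

/-- an effective divisor of degree `d` is a sum of `d` places. -/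
theorem exists_sumDiv_eq {K F : Type*} [Field K] [Field F] [Algebra K F] [IsAlgClosed K] [CharZero K]
    [IsFF K F] {G : Divisor K F} (hG : 0 ≤ G) {d : ℕ} (hd : Divisor.degree G = d) :
    ∃ P : Fin d → Place K F, sumDiv P = G := by
  sorry

/-- two enumerations of the same divisor differ by a permutation. -/
theorem exists_perm_of_sumDiv_eq {X : Type*} {d : ℕ} {P P' : Fin d → X}
    (h : ∑ j, Finsupp.single (P j) (1 : ℤ) = ∑ j, Finsupp.single (P' j) (1 : ℤ)) :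
    ∃ π : Equiv.Perm (Fin d), ∀ j, P' j = P (π j) := by
  sorry

/-- **(QB), core.**  `G₀ = ∑ P₀ j` a fixed hyperplane section, `Q₀ ∉ G₀` a fixed place.  Uniformly in the hyperplane
section `G = ∑ P j` and the place `Q` :
`∑ h(w(P j, Q)) = ∑ h(w(P₀ j, Q)) + ∑ h(w(P j, Q₀)) + O(1)`.

Proof.  `exists_genericData Qb F 1 (card ι)` : generic place `𝔔`, generic coefficients `c`.  `𝔓 : Fin d → Place Ω FΩ` an
enumeration of `zeroDiv FΩ φ D c` (`zeroDiv_nonneg`, `degree_zeroDiv`, `exists_sumDiv_eq`).  `X j`, `Y` coordinate vectors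
of `𝔓 j`, `𝔔`; `x₀ j`, `y₀` those of `P₀ j`, `Q₀` (mapped to `Ω`, `isPV_extPlace`).  Genericity (specialise!) gives
`𝔓 j ≠ 𝔔`, `𝔓 j ≠ extPlace Q₀`, `𝔔 ≠ extPlace (P₀ j)`, and the four numbers below are `≠ 0`.
`transfer_prod_eq` with `A = Fin d`, `s j = X j ∧ Y`; `B = Fin d ⊕ Fin d`, `t (inl j) = x₀ j ∧ Y`, `t (inr j) = X j ∧ y₀`;
`lam = (ℓ_{c₀}(Y) ℓ_c(y₀)) / (ℓ_c(Y) ℓ_{c₀}(y₀))`, `ℓ_c(Y) = ∑ c i * Y i`.  Hypothesis: `isWV_res` (second part) for the
`3 d` wedges, `hyperplane_formula` four times (`∏ᶠ dist ^ zeroDiv = ∏_j dist (𝔓 j)`), `dist = 1` for distinct constant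
places.  Specialisation: given `cb ≠ 0`, `Q` take `O` with `res c = cb`, `redPl 𝔔 = Q`; `1` normalises `c`;
`mapDomain_zeroDiv` : `redPl ∘ 𝔓` enumerates `secDiv φ D cb`, so it is `P` up to a permutation; `isWV_res` (first part),
`hW_eq`, `redPl_extPlace`. -/
theorem qb_core {φ : ι → F} (hli : LinearIndependent Qb φ) {D : Divisor Qb F} (hD : IsPD φ D)
    (hVA : IsVA Qb φ) {d : ℕ} {c₀ : ι → Qb} (hc₀ : c₀ ≠ 0) {P₀ : Fin d → Place Qb F}
    (hP₀ : sumDiv P₀ = secDiv φ D c₀) {Q₀ : Place Qb F} (hQ₀ : secDiv φ D c₀ Q₀ = 0) :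
    ∃ C : ℝ, ∀ (c : ι → Qb), c ≠ 0 → ∀ (P : Fin d → Place Qb F), sumDiv P = secDiv φ D c →
      ∀ Q : Place Qb F,
        |∑ j, hW φ (P j) Q - ∑ j, hW φ (P₀ j) Q - ∑ j, hW φ (P j) Q₀| ≤ C := by
  sorry

/-- `(QB)` for differences of hyperplane sections. -/
theorem qb_hyperplane {φ : ι → F} (hli : LinearIndependent Qb φ) {D : Divisor Qb F} (hD : IsPD φ D)
    (hVA : IsVA Qb φ) (n : ℕ) :
    ∃ C : ℝ, ∀ (c c' : ι → Qb), c ≠ 0 → c' ≠ 0 → ∀ B ∈ Divisor.degZero (K := Qb) (F := F),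
      nrm B ≤ n → |pair (Bt φ) (secDiv φ D c - secDiv φ D c') B| ≤ C := by
  sorry

/-- **(QB)**, in the form needed by `Quad.exists_quadratic_height_of_estimates`.
(`A = A₊ - A₋`, `deg A₊ = deg A₋ ≤ 3 g`; `l(D - A₊) ≥ 1`, so `A₊ + R ∼ D` with `R ≥ 0`, and then also `A₋ + R ∼ D`; both are
hyperplane sections because `φ` spans `L(D)`.) -/
theorem qb_final {φ : ι → F} (hli : LinearIndependent Qb φ) {D : Divisor Qb F} (hD : IsPD φ D)
    (hVA : IsVA Qb φ) (hspan : Submodule.span Qb (Set.range φ) = riemannRochSpace D)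
    (hdeg : 4 * (genusFF Qb F : ℤ) ≤ Divisor.degree D) :
    ∃ C : ℝ, ∀ A ∈ Divisor.principal (K := Qb) (F := F),
      ∀ B ∈ Divisor.degZero (K := Qb) (F := F), nrm A ≤ 6 * genusFF Qb F →
        nrm B ≤ 4 * genusFF Qb F → |pair (Bt φ) A B| ≤ C := by
  sorry

end Fermat.Agent.S17.Est
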